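/-
Programme S33 (masterplan report 1237), brick N1 (helper39): **the `p`-NEW half, abstractly.**

`LocalGeomTate p N M' π₁ π₂` : the fields of `Local66.Assembly.LocalGeom` that S33 needs (J-BRIDGE, RED
objects, `sub_mem_J0`, `sub_mem_J1`, TORIC), on the `p`-POWER torsion `torsPinf N p` of `J₀(N)(ℚ̄)`
instead of the `p`-torsion; NO `Φ`/`ρ`/Brandt/`δ` fields.

`cubic_on_ker` : for `x ∈ J₀(N)(ℚ̄)[pⁿ] ∩ ker π₁ ∩ ker π₂` and `σ σ' τ` in the inertia group at `p`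
(acting through `localGaloisToGlobal p`), if `τ` acts on `μ_{pⁿ}` by `ζ ↦ ζ ^ a` then
`(τ - a)(σ - 1)(σ' - 1) x = 0`.
-/
import Mathlib
import Fermat.Agent.T1B.Local66.Assembly

set_option autoImplicit false
set_option linter.unusedSectionVars false
set_option linter.unusedVariables false

open Fermat.Agent.TW.B5.Iface Fermat.Agent.T1B.Top68 ModularCurve
open Fermat.Agent.T1B.Plumb66.Cyclo Fermat.Agent.T1B.Plumb66.OneUnits
open Fermat.Agent.T1B.Plumb66.Inertia (Ip mem_Ip)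
open Fermat.Agent.T1B.Local66.Assembly

noncomputable section

namespace Fermat.Agent.S33P.Geo39

universe uA uE

local notation "Γ" => (AlgebraicClosure ℚ ≃ₐ[ℚ] AlgebraicClosure ℚ)

/-! ### The `p`-power torsion -/

/-- `J₀(N)(ℚ̄)[p^∞]`. -/
def torsPinf (N p : ℕ) : AddSubgroup (JZero N) where
  carrier := {x | ∃ n : ℕ, (p ^ n) • x = 0}
  zero_mem' := ⟨0, smul_zero _⟩
  add_mem' := by
    rintro x y ⟨n, hn⟩ ⟨m, hm⟩
    refine ⟨n + m, ?_⟩
    have h1 : (p ^ (n + m)) • x = 0 := by rw [pow_add, mul_comm, mul_nsmul', hn, nsmul_zero]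
    have h2 : (p ^ (n + m)) • y = 0 := by rw [pow_add, mul_nsmul', hm, nsmul_zero]
    rw [nsmul_add, h1, h2, add_zero]
  neg_mem' := by
    rintro x ⟨n, hn⟩
    exact ⟨n, by rw [neg_nsmul, hn, neg_zero]⟩

theorem mem_torsPinf {N p : ℕ} {x : JZero N} : x ∈ torsPinf N p ↔ ∃ n : ℕ, (p ^ n) • x = 0 :=
  Iff.rfl

theorem mem_torsPinf_of_pow {N p : ℕ} {x : JZero N} (n : ℕ) (h : (p ^ n) • x = 0) :
    x ∈ torsPinf N p := ⟨n, h⟩

/-- The action of a Galois element on `J₀(N)(ℚ̄)` as an additive map. -/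
def gHom {N : ℕ} (g : Γ) : JZero N →+ JZero N := DistribSMul.toAddMonoidHom (JZero N) g

theorem gHom_apply {N : ℕ} (g : Γ) (x : JZero N) : gHom g x = g • x := rfl

theorem gsmul_zero {N : ℕ} (g : Γ) : g • (0 : JZero N) = 0 := map_zero (gHom g)

theorem gsmul_sub {N : ℕ} (g : Γ) (x y : JZero N) : g • (x - y) = g • x - g • y :=
  map_sub (gHom g) x y

theorem smul_nsmul_comm {N : ℕ} (g : Γ) (m : ℕ) (x : JZero N) : g • (m • x) = m • (g • x) :=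
  map_nsmul (gHom g) m x

theorem smul_mem_torsPinf {N p : ℕ} (g : Γ) {x : JZero N} (hx : x ∈ torsPinf N p) :
    g • x ∈ torsPinf N p := by
  obtain ⟨n, hn⟩ := hx
  exact ⟨n, by rw [← smul_nsmul_comm, hn, gsmul_zero]⟩

/-! ### The local geometry on the `p`-power torsion -/

set_option linter.checkUnivs false in
/-- **LOCAL GEOMETRY for S33** at `p` for the level `N`: the J-BRIDGE on `J₀(N)(ℚ̄)[p^∞]`, the classes of
points, `J1 ⊂ J0`, and the toric description of `ker β ∩ J1` at every level `pⁿ`. -/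
structure LocalGeomTate (p : ℕ) [Fact p.Prime] (N M' : ℕ) [NeZero N] [NeZero M']
    (π₁ π₂ : JZero N →+ JZero M') where
  /-- the local points `J(ℚ̄_p)` -/
  A : Type uA
  [instA : AddCommGroup A]
  [actA : DistribMulAction ↥(Ip p) A]
  /-- J-BRIDGE, on the `p`-power torsion -/
  j : ↥(torsPinf N p) →+ A
  j_inj : Function.Injective j
  j_res : ∀ (τ : ↥(Ip p)) (x : JZero N) (hx : x ∈ torsPinf N p)
    (hx' : localGaloisToGlobal p (τ : Gp p) • x ∈ torsPinf N p), j ⟨_, hx'⟩ = τ • j ⟨x, hx⟩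
  /-- the classes of points defined over a finite extension of `ℚ_p` -/
  Pt : AddSubgroup A
  j_Pt : ∀ x, j x ∈ Pt
  J0 : AddSubgroup A
  sub_mem_J0 : ∀ τ : ↥(Ip p), ∀ x ∈ Pt, τ • x - x ∈ J0
  J1 : AddSubgroup A
  sub_mem_J1 : ∀ τ : ↥(Ip p), ∀ x ∈ J0, τ • x - x ∈ J1
  /-- TORIC -/
  E : Type uE
  ιT : (E → oneUnits p) → A
  ιT_mul : ∀ a b : E → oneUnits p, ιT (a * b) = ιT a + ιT b
  ιT_smul : ∀ (τ : ↥(Ip p)) (z : E → oneUnits p), ιT (fun e => (τ : Gp p) • z e) = τ • ιT z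
  toric_inf : ∀ (n : ℕ) (x : JZero N) (hx : x ∈ torsPinf N p), (p ^ n) • x = 0 → π₁ x = 0 →
    π₂ x = 0 → j ⟨x, hx⟩ ∈ J1 →
    ∃ z : E → oneUnits p, (∀ e, z e ^ p ^ n = 1) ∧ ιT z = j ⟨x, hx⟩

attribute [instance] LocalGeomTate.instA LocalGeomTate.actA

variable {p : ℕ} [Fact p.Prime] {N M' : ℕ} [NeZero N] [NeZero M'] {π₁ π₂ : JZero N →+ JZero M'}
  (G : LocalGeomTate.{uA, uE} p N M' π₁ π₂)

/-- `j ((σ - 1) x) = (σ - 1) (j x)`. -/
theorem LocalGeomTate.j_sub (σ : ↥(Ip p)) (x : JZero N) (hx : x ∈ torsPinf N p)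
    (hw : localGaloisToGlobal p (σ : Gp p) • x - x ∈ torsPinf N p) :
    G.j ⟨_, hw⟩ = σ • G.j ⟨x, hx⟩ - G.j ⟨x, hx⟩ := by
  have hx' : localGaloisToGlobal p (σ : Gp p) • x ∈ torsPinf N p := smul_mem_torsPinf _ hx
  have e : (⟨localGaloisToGlobal p (σ : Gp p) • x - x, hw⟩ : ↥(torsPinf N p)) =
      ⟨_, hx'⟩ - ⟨x, hx⟩ := rfl
  rw [e, map_sub, G.j_res σ x hx hx']

include G in
/-- **The cubic identity on `ker β`** (the `p`-new half of S33):
`(τ - a)(σ - 1)(σ' - 1) x = 0` for `x ∈ J₀(N)(ℚ̄)[pⁿ] ∩ ker π₁ ∩ ker π₂`, `σ σ' τ ∈ I_p`, `a` the exponent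
of `τ` on `μ_{pⁿ}`. -/
theorem cubic_on_ker
    (hπ₁ : ∀ (τ : ↥(Ip p)) (x : JZero N),
      π₁ (localGaloisToGlobal p (τ : Gp p) • x) = localGaloisToGlobal p (τ : Gp p) • π₁ x)
    (hπ₂ : ∀ (τ : ↥(Ip p)) (x : JZero N),
      π₂ (localGaloisToGlobal p (τ : Gp p) • x) = localGaloisToGlobal p (τ : Gp p) • π₂ x)
    (σ σ' τ : ↥(Ip p)) (n a : ℕ)
    (ha : ∀ u : oneUnits p, u ^ p ^ n = 1 → (τ : Gp p) • u = u ^ a)
    (x : JZero N) (hx : (p ^ n) • x = 0) (h1 : π₁ x = 0) (h2 : π₂ x = 0) :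
    localGaloisToGlobal p (τ : Gp p) •
        (localGaloisToGlobal p (σ : Gp p) • (localGaloisToGlobal p (σ' : Gp p) • x - x) -
          (localGaloisToGlobal p (σ' : Gp p) • x - x)) =
      a • (localGaloisToGlobal p (σ : Gp p) • (localGaloisToGlobal p (σ' : Gp p) • x - x) -
          (localGaloisToGlobal p (σ' : Gp p) • x - x)) := by
  -- generic facts about `(g - 1)`
  have hker : ∀ (g : ↥(Ip p)) (v : JZero N), (p ^ n) • v = 0 → π₁ v = 0 → π₂ v = 0 →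
      (p ^ n) • (localGaloisToGlobal p (g : Gp p) • v - v) = 0 ∧
        π₁ (localGaloisToGlobal p (g : Gp p) • v - v) = 0 ∧
        π₂ (localGaloisToGlobal p (g : Gp p) • v - v) = 0 := by
    intro g v hv hv1 hv2
    refine ⟨?_, ?_, ?_⟩
    · rw [nsmul_sub, ← smul_nsmul_comm, hv, gsmul_zero, sub_zero]
    · rw [map_sub, hπ₁, hv1, gsmul_zero, sub_zero]
    · rw [map_sub, hπ₂, hv2, gsmul_zero, sub_zero]
  set w := localGaloisToGlobal p (σ' : Gp p) • x - x with hwdef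
  set y := localGaloisToGlobal p (σ : Gp p) • w - w with hydef
  obtain ⟨hwn, hw1, hw2⟩ := hker σ' x hx h1 h2
  obtain ⟨hyn, hy1, hy2⟩ := hker σ w hwn hw1 hw2
  have hxm : x ∈ torsPinf N p := ⟨n, hx⟩
  have hwm : w ∈ torsPinf N p := ⟨n, hwn⟩
  have hym : y ∈ torsPinf N p := ⟨n, hyn⟩
  -- `j w ∈ J0`, `j y ∈ J1`
  have hjw : G.j ⟨w, hwm⟩ ∈ G.J0 := by
    rw [G.j_sub σ' x hxm hwm]
    exact G.sub_mem_J0 σ' _ (G.j_Pt _)
  have hjy : G.j ⟨y, hym⟩ ∈ G.J1 := by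
    rw [G.j_sub σ w hwm hym]
    exact G.sub_mem_J1 σ _ hjw
  -- the toric description
  obtain ⟨z, hz, hzy⟩ := G.toric_inf n y hym hyn hy1 hy2 hjy
  have hτ : τ • G.j ⟨y, hym⟩ = a • G.j ⟨y, hym⟩ := by
    rw [← hzy, ← G.ιT_smul τ z]
    have h : (fun e => (τ : Gp p) • z e) = z ^ a := by
      funext e
      rw [Pi.pow_apply]
      exact ha (z e) (hz e)
    rw [h, map_pow_of_map_mul G.ιT G.ιT_mul]
  -- back to `J₀(N)` by injectivity
  have hτy : localGaloisToGlobal p (τ : Gp p) • y ∈ torsPinf N p := smul_mem_torsPinf _ hym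
  have h3 : G.j ⟨_, hτy⟩ = G.j (a • ⟨y, hym⟩) := by
    rw [G.j_res τ y hym hτy, hτ, map_nsmul]
  exact congrArg Subtype.val (G.j_inj h3)

end Fermat.Agent.S33P.Geo39
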